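/-
Program C (S55), package C3, generic cyclic classes (helper37): leaves CY1 and CY4 of
`Fermat/Agent/S55/H66/CycDefs.lean` (designer helper66), VERBATIM, plus the index calculus
used by the other cyclic leaves.

* `cycIdx_pow`      : `cycIdx σ (σ ^ i) = i % orderOf σ`
* `exists_pow_eq`   : every element of `zpowers σ` is `σ ^ i` with `i < orderOf σ`
* `cycFun_pow`      : the value of `cycFun A σ a` at `(σ ^ i, σ ^ j)`
* `cycFun_mem`      : `cycFun A σ a` is a 2-cocycle (carry identity)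
* `cycClass_eq`     : `cycClass A σ a` is the class of the cocycle `cycFun A σ a`
* `leafCycCocycle`  : `H66.LeafCycCocycle`   (CY1)
* `leafCycAdd`      : `H66.LeafCycAdd`       (CY4)
-/
import Mathlib
import Fermat.Agent.S55.H66.CycDefs

set_option autoImplicit false

noncomputable section

namespace Fermat.Agent.S55.H37

open CategoryTheory groupCohomology Rep Fermat.Agent.S55.H66

section Index

variable {G : Type} [Group G]

/-- The index of a power of `σ`. -/
theorem cycIdx_pow (σ : G) (i : ℕ) : cycIdx σ (σ ^ i) = i % orderOf σ := by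
  classical
  have h : ∃ j : ℕ, σ ^ j = σ ^ i := ⟨i, rfl⟩
  unfold cycIdx
  rw [dif_pos h]
  apply le_antisymm
  · exact Nat.find_min' h (pow_mod_orderOf σ i)
  · have h1 := Nat.find_spec h
    rw [pow_eq_pow_iff_modEq] at h1
    calc i % orderOf σ = Nat.find h % orderOf σ := h1.symm
      _ ≤ Nat.find h := Nat.mod_le _ _

/-- Every element of the cyclic group generated by an element `σ` of finite order is a power
`σ ^ i` with `i < orderOf σ`. -/
theorem exists_pow_eq (σ : G) (hn : 0 < orderOf σ) (g : G) (hg : g ∈ Subgroup.zpowers σ) :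
    ∃ i : ℕ, i < orderOf σ ∧ σ ^ i = g := by
  obtain ⟨z, rfl⟩ := Subgroup.mem_zpowers_iff.mp hg
  have hn' : (orderOf σ : ℤ) ≠ 0 := by exact_mod_cast hn.ne'
  refine ⟨(z % (orderOf σ : ℤ)).toNat, ?_, ?_⟩
  · have h1 := Int.emod_lt_of_pos z (by exact_mod_cast hn : (0 : ℤ) < orderOf σ)
    have h2 := Int.emod_nonneg z hn'
    omega
  · rw [← zpow_natCast, Int.toNat_of_nonneg (Int.emod_nonneg z hn'), zpow_mod_orderOf]

theorem cycIdx_lt (σ : G) (hn : 0 < orderOf σ) (g : G) (hg : g ∈ Subgroup.zpowers σ) :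
    cycIdx σ g < orderOf σ := by
  obtain ⟨i, -, rfl⟩ := exists_pow_eq σ hn g hg
  rw [cycIdx_pow]
  exact Nat.mod_lt _ hn

theorem pow_cycIdx (σ : G) (hn : 0 < orderOf σ) (g : G) (hg : g ∈ Subgroup.zpowers σ) :
    σ ^ cycIdx σ g = g := by
  obtain ⟨i, -, rfl⟩ := exists_pow_eq σ hn g hg
  rw [cycIdx_pow, pow_mod_orderOf]

end Index

section Cocycle

variable {k G : Type} [CommRing k] [Group G] (A : Rep.{0, 0, 0} k G)

/-- The value of the cyclic cochain at a pair of powers of `σ`. -/
theorem cycFun_pow (σ : G) (a : A) (i j : ℕ) :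
    cycFun A σ a (σ ^ i, σ ^ j)
      = if orderOf σ ≤ i % orderOf σ + j % orderOf σ then a else 0 := by
  simp only [cycFun, cycIdx_pow]

/-- The value of the cyclic cochain at a pair of reduced powers of `σ`. -/
theorem cycFun_pow_of_lt (σ : G) (a : A) {i j : ℕ} (hi : i < orderOf σ) (hj : j < orderOf σ) :
    cycFun A σ a (σ ^ i, σ ^ j) = if orderOf σ ≤ i + j then a else 0 := by
  rw [cycFun_pow, Nat.mod_eq_of_lt hi, Nat.mod_eq_of_lt hj]

theorem cycFun_add (σ : G) (a b : A) :
    cycFun A σ (a + b) = cycFun A σ a + cycFun A σ b := by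
  funext x
  simp only [cycFun, Pi.add_apply]
  split_ifs
  · rfl
  · rw [add_zero]

/-- **CY1** (carry identity): the cyclic cochain of an invariant element is a 2-cocycle. -/
theorem cycFun_mem (σ : G) (hn : 0 < orderOf σ) (hσ : ∀ g : G, g ∈ Subgroup.zpowers σ) (a : A)
    (ha : ∀ g : G, A.ρ g a = a) : cycFun A σ a ∈ cocycles₂ A := by
  rw [mem_cocycles₂_iff]
  intro g h j
  obtain ⟨x, hx, rfl⟩ := exists_pow_eq σ hn g (hσ g)
  obtain ⟨y, hy, rfl⟩ := exists_pow_eq σ hn h (hσ h)
  obtain ⟨z, hz, rfl⟩ := exists_pow_eq σ hn j (hσ j)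
  rw [← pow_add, ← pow_add, cycFun_pow, cycFun_pow, cycFun_pow, cycFun_pow,
    apply_ite (A.ρ (σ ^ x)), map_zero, ha, Nat.mod_eq_of_lt hx, Nat.mod_eq_of_lt hy,
    Nat.mod_eq_of_lt hz]
  by_cases h1 : orderOf σ ≤ x + y
  · have e1 : (x + y) % orderOf σ = x + y - orderOf σ := by
      rw [Nat.mod_eq_sub_mod h1, Nat.mod_eq_of_lt (by omega)]
    by_cases h2 : orderOf σ ≤ y + z
    · have e2 : (y + z) % orderOf σ = y + z - orderOf σ := by
        rw [Nat.mod_eq_sub_mod h2, Nat.mod_eq_of_lt (by omega)]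
      rw [e1, e2]
      split_ifs <;> first | rfl | omega | abel
    · have e2 : (y + z) % orderOf σ = y + z := Nat.mod_eq_of_lt (by omega)
      rw [e1, e2]
      split_ifs <;> first | rfl | omega
  · have e1 : (x + y) % orderOf σ = x + y := Nat.mod_eq_of_lt (by omega)
    by_cases h2 : orderOf σ ≤ y + z
    · have e2 : (y + z) % orderOf σ = y + z - orderOf σ := by
        rw [Nat.mod_eq_sub_mod h2, Nat.mod_eq_of_lt (by omega)]
      rw [e1, e2]
      split_ifs <;> first | rfl | omega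
    · have e2 : (y + z) % orderOf σ = y + z := Nat.mod_eq_of_lt (by omega)
      rw [e1, e2]
      split_ifs <;> first | rfl | omega | abel

/-- `cycClass A σ a` is the class of the cocycle `cycFun A σ a`. -/
theorem cycClass_eq (σ : G) (a : A) (h : cycFun A σ a ∈ cocycles₂ A) :
    cycClass A σ a = (H2π A).hom ⟨cycFun A σ a, h⟩ := by
  unfold cycClass
  rw [dif_pos h]

/-- **CY4**: additivity of the cyclic class. -/
theorem cycClass_add (σ : G) (hn : 0 < orderOf σ) (hσ : ∀ g : G, g ∈ Subgroup.zpowers σ)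
    (a b : A) (ha : ∀ g : G, A.ρ g a = a) (hb : ∀ g : G, A.ρ g b = b) :
    cycClass A σ (a + b) = cycClass A σ a + cycClass A σ b := by
  have hab : ∀ g : G, A.ρ g (a + b) = a + b := fun g => by rw [map_add, ha, hb]
  rw [cycClass_eq A σ a (cycFun_mem A σ hn hσ a ha), cycClass_eq A σ b (cycFun_mem A σ hn hσ b hb),
    cycClass_eq A σ (a + b) (cycFun_mem A σ hn hσ (a + b) hab), ← map_add]
  congr 1
  exact Subtype.ext (cycFun_add A σ a b)

end Cocycle

/-- **Leaf CY1** of `CycDefs.lean`. -/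
theorem leafCycCocycle : LeafCycCocycle := by
  intro k G _ _ _ A σ hσ a ha
  exact cycFun_mem A σ (orderOf_pos σ) hσ a ha

/-- **Leaf CY4** of `CycDefs.lean`. -/
theorem leafCycAdd : LeafCycAdd := by
  intro k G _ _ _ A σ hσ a b ha hb
  exact cycClass_add A σ (orderOf_pos σ) hσ a b ha hb

end Fermat.Agent.S55.H37
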