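/-
Program C (S55), package C3, generic cyclic classes (helper37): leaves CY2, CY3, CY5 of
`Fermat/Agent/S55/H66/CycDefs.lean` (designer helper66), VERBATIM.

KEY lemma `cycClass_sum`: for a generator `σ` of order `n` and EVERY 2-cocycle `c`, the element
`a(c) = Σ_{k<n} c(σ^k, σ)` is invariant and `[c] = cycClass A σ a(c)`.

* `cycSum`, `cycPrim`           : partial sums `Σ_{k<i} c(σ^k, σ)` and the primitive
* `cycClass_sum`                : KEY
* `cycNorm`, `cycClass_norm`    : `cycClass A σ (Σ_{k<n} σ^k b) = 0`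
* `exists_norm_of_cycClass_eq_zero` : converse
* `cycClass_pow`                : change of generator
* `leafCycSurj`, `leafCycZero`, `leafCycGen` : CY2, CY3, CY5
-/
import Mathlib
import Fermat.Agent.S55.H37.CycCocycle

set_option autoImplicit false

noncomputable section

namespace Fermat.Agent.S55.H37

open CategoryTheory groupCohomology Rep Fermat.Agent.S55.H66

/-! ### Sums over a period -/

theorem sum_shift {M : Type*} [AddCommGroup M] (F : ℕ → M) (n : ℕ) (h : F n = F 0) :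
    ∑ k ∈ Finset.range n, F (k + 1) = ∑ k ∈ Finset.range n, F k := by
  have h1 := Finset.sum_range_succ' F n
  have h2 := Finset.sum_range_succ F n
  rw [h1, h] at h2
  exact add_right_cancel h2

theorem sum_carry {M : Type*} [AddCommMonoid M] (x : M) (n s : ℕ) (hs : s ≤ n) :
    ∑ m ∈ Finset.range n, (if n ≤ m + s then x else 0) = s • x := by
  rw [← Finset.sum_filter, Finset.sum_const]
  congr 1
  have : Finset.filter (fun m => n ≤ m + s) (Finset.range n) = Finset.Ico (n - s) n := by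
    ext m
    simp only [Finset.mem_filter, Finset.mem_range, Finset.mem_Ico]
    omega
  rw [this, Nat.card_Ico]
  omega

theorem sum_univ_eq_sum_range {G : Type} [Group G] [Fintype G] {M : Type*} [AddCommMonoid M]
    (σ : G) (hσ : ∀ g : G, g ∈ Subgroup.zpowers σ) (F : G → M) :
    ∑ g : G, F g = ∑ k ∈ Finset.range (orderOf σ), F (σ ^ k) := by
  classical
  rw [← IsCyclic.image_range_orderOf hσ, Finset.sum_image]
  intro x hx y hy hxy
  exact pow_injOn_Iio_orderOf (by simpa using hx) (by simpa using hy) hxy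

section Key

variable {k G : Type} [CommRing k] [Group G] (A : Rep.{0, 0, 0} k G)

/-- Partial sums `Σ_{k<i} c(σ^k, σ)`. -/
def cycSum (σ : G) (c : G × G → A) (i : ℕ) : A := ∑ k ∈ Finset.range i, c (σ ^ k, σ)

theorem cycSum_zero (σ : G) (c : G × G → A) : cycSum A σ c 0 = 0 := by
  simp [cycSum]

theorem cycSum_succ (σ : G) (c : G × G → A) (i : ℕ) :
    cycSum A σ c (i + 1) = cycSum A σ c i + c (σ ^ i, σ) := by
  simp [cycSum, Finset.sum_range_succ]

/-- The primitive of `c - cycFun (cycSum c n)`. -/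
def cycPrim (σ : G) (c : G × G → A) : G → A :=
  fun g => c (1, 1) - cycSum A σ c (cycIdx σ g)

theorem key_aux (σ : G) (c : cocycles₂ A) {i : ℕ} (hi : i < orderOf σ) :
    ∀ j : ℕ, j < orderOf σ → c (σ ^ i, σ ^ j) =
      (if orderOf σ ≤ i + j then cycSum A σ c (orderOf σ) else 0) +
        (A.ρ (σ ^ i) (c (1, 1) - cycSum A σ c j)
          - (c (1, 1) - cycSum A σ c ((i + j) % orderOf σ)) + (c (1, 1) - cycSum A σ c i)) := by
  intro j
  induction j with
  | zero =>
    intro _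
    rw [pow_zero, cocycles₂_map_one_snd, add_zero, Nat.mod_eq_of_lt hi, if_neg (by omega),
      cycSum_zero, sub_zero, zero_add]
    abel
  | succ j ih =>
    intro hj
    have ih' := ih (by omega)
    have hcoc := (mem_cocycles₂_iff c).1 c.2 (σ ^ i) (σ ^ j) σ
    rw [← pow_add, ← pow_succ] at hcoc
    have hper : c (σ ^ (i + j), σ) = c (σ ^ ((i + j) % orderOf σ), σ) := by
      rw [pow_mod_orderOf]
    have e1 : c (σ ^ i, σ ^ (j + 1))
        = c (σ ^ ((i + j) % orderOf σ), σ) + c (σ ^ i, σ ^ j) - A.ρ (σ ^ i) (c (σ ^ j, σ)) := by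
      rw [← hper, hcoc]
      abel
    rw [e1, ih', cycSum_succ, map_sub, map_sub, map_add]
    by_cases h1 : orderOf σ ≤ i + j
    · have m1 : (i + j) % orderOf σ = i + j - orderOf σ := by
        rw [Nat.mod_eq_sub_mod h1, Nat.mod_eq_of_lt (by omega)]
      have m2 : (i + (j + 1)) % orderOf σ = (i + j - orderOf σ) + 1 := by
        rw [Nat.mod_eq_sub_mod (by omega), Nat.mod_eq_of_lt (by omega)]
        omega
      rw [m2, cycSum_succ, m1, if_pos h1, if_pos (by omega)]
      abel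
    · have m1 : (i + j) % orderOf σ = i + j := Nat.mod_eq_of_lt (by omega)
      by_cases h2 : i + j + 1 = orderOf σ
      · have m2 : (i + (j + 1)) % orderOf σ = 0 := by
          rw [← add_assoc, h2, Nat.mod_self]
        have h3 : cycSum A σ c (orderOf σ) = cycSum A σ c (i + j) + c (σ ^ (i + j), σ) := by
          rw [← cycSum_succ, h2]
        rw [m2, m1, if_neg h1, if_pos (by omega), cycSum_zero, h3]
        abel
      · have m2 : (i + (j + 1)) % orderOf σ = i + j + 1 := Nat.mod_eq_of_lt (by omega)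
        rw [m2, cycSum_succ, m1, if_neg h1, if_neg (by omega)]
        abel

theorem key_eq (σ : G) (hn : 0 < orderOf σ) (hσ : ∀ g : G, g ∈ Subgroup.zpowers σ)
    (c : cocycles₂ A) (g₁ g₂ : G) :
    c (g₁, g₂) - cycFun A σ (cycSum A σ c (orderOf σ)) (g₁, g₂)
      = (d₁₂ A).hom (cycPrim A σ c) (g₁, g₂) := by
  obtain ⟨i, hi, rfl⟩ := exists_pow_eq σ hn g₁ (hσ g₁)
  obtain ⟨j, hj, rfl⟩ := exists_pow_eq σ hn g₂ (hσ g₂)
  rw [d₁₂_hom_apply]
  simp only [cycPrim]
  rw [← pow_add, cycIdx_pow, cycIdx_pow, cycIdx_pow, Nat.mod_eq_of_lt hi, Nat.mod_eq_of_lt hj,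
    cycFun_pow_of_lt A σ _ hi hj, key_aux A σ c hi j hj]
  abel

theorem rho_cycSum (σ : G) (c : cocycles₂ A) :
    A.ρ σ (cycSum A σ c (orderOf σ)) = cycSum A σ c (orderOf σ) := by
  have hrel : ∀ k : ℕ, c (σ ^ (k + 1), σ) + c (σ, σ ^ k)
      = A.ρ σ (c (σ ^ k, σ)) + c (σ, σ ^ (k + 1)) := by
    intro k
    have := (mem_cocycles₂_iff c).1 c.2 σ (σ ^ k) σ
    rwa [← pow_succ', ← pow_succ] at this
  have hsum : ∑ k ∈ Finset.range (orderOf σ), (c (σ ^ (k + 1), σ) + c (σ, σ ^ k))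
      = ∑ k ∈ Finset.range (orderOf σ), (A.ρ σ (c (σ ^ k, σ)) + c (σ, σ ^ (k + 1))) :=
    Finset.sum_congr rfl fun k _ => hrel k
  have e : ∑ k ∈ Finset.range (orderOf σ), A.ρ σ (c (σ ^ k, σ))
      = A.ρ σ (cycSum A σ c (orderOf σ)) := by
    unfold cycSum
    rw [map_sum]
  rw [Finset.sum_add_distrib, Finset.sum_add_distrib,
    sum_shift (fun k => c (σ ^ k, σ)) (orderOf σ) (by simp [pow_orderOf_eq_one]),
    sum_shift (fun k => c (σ, σ ^ k)) (orderOf σ) (by simp [pow_orderOf_eq_one]), e] at hsum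
  exact (add_right_cancel hsum).symm

theorem rho_all_of_rho (σ : G) (hn : 0 < orderOf σ) (hσ : ∀ g : G, g ∈ Subgroup.zpowers σ)
    (a : A) (ha : A.ρ σ a = a) (g : G) : A.ρ g a = a := by
  obtain ⟨i, -, rfl⟩ := exists_pow_eq σ hn g (hσ g)
  induction i with
  | zero => simp
  | succ i ih =>
    rw [pow_succ, map_mul, Module.End.mul_apply, ha, ih]

theorem rho_cycSum_all (σ : G) (hn : 0 < orderOf σ) (hσ : ∀ g : G, g ∈ Subgroup.zpowers σ)
    (c : cocycles₂ A) (g : G) :
    A.ρ g (cycSum A σ c (orderOf σ)) = cycSum A σ c (orderOf σ) :=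
  rho_all_of_rho A σ hn hσ _ (rho_cycSum A σ c) g

/-- **KEY**: the class of any 2-cocycle `c` of a finite cyclic group with generator `σ` is the
cyclic class of the invariant element `Σ_{k<n} c(σ^k, σ)`. -/
theorem cycClass_sum (σ : G) (hn : 0 < orderOf σ) (hσ : ∀ g : G, g ∈ Subgroup.zpowers σ)
    (c : cocycles₂ A) :
    (∀ g : G, A.ρ g (cycSum A σ c (orderOf σ)) = cycSum A σ c (orderOf σ)) ∧
      (H2π A).hom c = cycClass A σ (cycSum A σ c (orderOf σ)) := by
  have hinv := rho_cycSum_all A σ hn hσ c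
  refine ⟨hinv, ?_⟩
  have hmem := cycFun_mem A σ hn hσ _ hinv
  rw [cycClass_eq A σ _ hmem]
  refine (H2π_eq_iff c ⟨_, hmem⟩).2 ⟨cycPrim A σ c, ?_⟩
  funext x
  exact (key_eq A σ hn hσ c x.1 x.2).symm

end Key

section Norm

variable {k G : Type} [CommRing k] [Group G] (A : Rep.{0, 0, 0} k G)

/-- Partial norms `Σ_{k<i} σ^k b`. -/
def cycNorm (σ : G) (b : A) (i : ℕ) : A := ∑ k ∈ Finset.range i, A.ρ (σ ^ k) b

theorem cycNorm_add (σ : G) (b : A) (i j : ℕ) :
    cycNorm A σ b (i + j) = cycNorm A σ b i + A.ρ (σ ^ i) (cycNorm A σ b j) := by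
  unfold cycNorm
  rw [Finset.sum_range_add, map_sum]
  congr 1
  refine Finset.sum_congr rfl fun x _ => ?_
  rw [pow_add, map_mul, Module.End.mul_apply]

theorem rho_cycNorm (σ : G) (b : A) :
    A.ρ σ (cycNorm A σ b (orderOf σ)) = cycNorm A σ b (orderOf σ) := by
  unfold cycNorm
  rw [map_sum, ← sum_shift (fun k => A.ρ (σ ^ k) b) (orderOf σ) (by simp [pow_orderOf_eq_one])]
  refine Finset.sum_congr rfl fun x _ => ?_
  rw [pow_succ', map_mul, Module.End.mul_apply]

/-- The full norm of an invariant element is a multiple. -/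
theorem cycNorm_of_invariant (σ : G) (b : A) (hb : A.ρ σ b = b) (i : ℕ) :
    cycNorm A σ b i = i • b := by
  unfold cycNorm
  have : ∀ k : ℕ, A.ρ (σ ^ k) b = b := by
    intro k
    induction k with
    | zero => simp
    | succ k ih => rw [pow_succ, map_mul, Module.End.mul_apply, hb, ih]
  rw [Finset.sum_congr rfl (fun k _ => this k)]
  simp

theorem cycFun_norm_eq (σ : G) (hn : 0 < orderOf σ) (hσ : ∀ g : G, g ∈ Subgroup.zpowers σ)
    (b : A) (g₁ g₂ : G) :
    cycFun A σ (cycNorm A σ b (orderOf σ)) (g₁, g₂)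
      = (d₁₂ A).hom (fun g => cycNorm A σ b (cycIdx σ g)) (g₁, g₂) := by
  obtain ⟨i, hi, rfl⟩ := exists_pow_eq σ hn g₁ (hσ g₁)
  obtain ⟨j, hj, rfl⟩ := exists_pow_eq σ hn g₂ (hσ g₂)
  rw [d₁₂_hom_apply]
  simp only []
  rw [← pow_add, cycIdx_pow, cycIdx_pow, cycIdx_pow, Nat.mod_eq_of_lt hi, Nat.mod_eq_of_lt hj,
    cycFun_pow_of_lt A σ _ hi hj]
  have hadd := cycNorm_add A σ b i j
  by_cases h1 : orderOf σ ≤ i + j
  · have m1 : (i + j) % orderOf σ = i + j - orderOf σ := by
      rw [Nat.mod_eq_sub_mod h1, Nat.mod_eq_of_lt (by omega)]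
    have h2 : cycNorm A σ b (i + j)
        = cycNorm A σ b (orderOf σ) + cycNorm A σ b (i + j - orderOf σ) := by
      have := cycNorm_add A σ b (orderOf σ) (i + j - orderOf σ)
      rw [pow_orderOf_eq_one, map_one, Module.End.one_apply, Nat.add_sub_cancel' h1] at this
      exact this
    have h3 : A.ρ (σ ^ i) (cycNorm A σ b j) = cycNorm A σ b (i + j) - cycNorm A σ b i := by
      rw [hadd]
      abel
    rw [if_pos h1, m1, h3, h2]
    abel
  · have m1 : (i + j) % orderOf σ = i + j := Nat.mod_eq_of_lt (by omega)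
    rw [if_neg h1, m1, hadd]
    abel

/-- The cyclic class of a norm vanishes. -/
theorem cycClass_norm (σ : G) (hn : 0 < orderOf σ) (hσ : ∀ g : G, g ∈ Subgroup.zpowers σ)
    (b : A) : cycClass A σ (cycNorm A σ b (orderOf σ)) = 0 := by
  have hinv : ∀ g : G, A.ρ g (cycNorm A σ b (orderOf σ)) = cycNorm A σ b (orderOf σ) :=
    rho_all_of_rho A σ hn hσ _ (rho_cycNorm A σ b)
  have hmem := cycFun_mem A σ hn hσ _ hinv
  rw [cycClass_eq A σ _ hmem]
  refine (H2π_eq_zero_iff ⟨_, hmem⟩).2 ⟨fun g => cycNorm A σ b (cycIdx σ g), ?_⟩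
  funext x
  exact (cycFun_norm_eq A σ hn hσ b x.1 x.2).symm

/-- An invariant element whose cyclic class vanishes is a norm. -/
theorem exists_cycNorm_of_cycClass_eq_zero (σ : G) (hn : 0 < orderOf σ)
    (hσ : ∀ g : G, g ∈ Subgroup.zpowers σ) (a : A) (ha : ∀ g : G, A.ρ g a = a)
    (h : cycClass A σ a = 0) : ∃ b : A, cycNorm A σ b (orderOf σ) = a := by
  have hmem := cycFun_mem A σ hn hσ a ha
  rw [cycClass_eq A σ a hmem] at h
  obtain ⟨f, hf⟩ := (H2π_eq_zero_iff ⟨_, hmem⟩).1 h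
  by_cases h1 : orderOf σ = 1
  · refine ⟨a, ?_⟩
    rw [h1]
    simp [cycNorm]
  · have hn2 : 1 < orderOf σ := by omega
    refine ⟨f σ, ?_⟩
    have hk : ∀ k ∈ Finset.range (orderOf σ), (if orderOf σ ≤ k + 1 then a else 0)
        = A.ρ (σ ^ k) (f σ) - f (σ ^ (k + 1)) + f (σ ^ k) := by
      intro k hk
      have hk' := Finset.mem_range.mp hk
      have h2 := congrFun hf (σ ^ k, σ)
      rw [d₁₂_hom_apply] at h2
      have h3 : cycFun A σ a (σ ^ k, σ) = if orderOf σ ≤ k + 1 then a else 0 := by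
        have := cycFun_pow_of_lt A σ a hk' hn2
        rwa [pow_one] at this
      rw [← h3, pow_succ]
      exact h2.symm
    have hsum := Finset.sum_congr rfl hk
    rw [Finset.sum_add_distrib, Finset.sum_sub_distrib,
      sum_shift (fun k => f (σ ^ k)) (orderOf σ) (by simp [pow_orderOf_eq_one]),
      sum_carry a (orderOf σ) 1 (by omega), one_smul] at hsum
    rw [hsum]
    unfold cycNorm
    abel

/-- Multiples of an invariant element: the class only depends on the multiplier modulo the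
order. -/
theorem cycClass_modEq (σ : G) (hn : 0 < orderOf σ) (hσ : ∀ g : G, g ∈ Subgroup.zpowers σ)
    (a : A) (ha : ∀ g : G, A.ρ g a = a) {u v : ℕ} (h : u ≡ v [MOD orderOf σ]) :
    cycClass A σ (u • a) = cycClass A σ (v • a) := by
  wlog huv : u ≤ v generalizing u v
  · exact (this h.symm (le_of_not_ge huv)).symm
  obtain ⟨r, hr⟩ := (Nat.modEq_iff_dvd' huv).1 h
  have hv : v = u + orderOf σ * r := by omega
  have hra : ∀ g : G, A.ρ g (r • a) = r • a := fun g => by rw [map_nsmul, ha]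
  have hua : ∀ g : G, A.ρ g (u • a) = u • a := fun g => by rw [map_nsmul, ha]
  have hN : cycNorm A σ (r • a) (orderOf σ) = (orderOf σ * r) • a := by
    rw [cycNorm_of_invariant A σ (r • a) (hra σ), mul_smul]
  have hNinv : ∀ g : G, A.ρ g (cycNorm A σ (r • a) (orderOf σ))
      = cycNorm A σ (r • a) (orderOf σ) := rho_all_of_rho A σ hn hσ _ (rho_cycNorm A σ (r • a))
  rw [hv, add_smul, ← hN, cycClass_add A σ hn hσ _ _ hua hNinv, cycClass_norm A σ hn hσ,
    add_zero]

end Norm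

section Gen

variable {k G : Type} [CommRing k] [Group G] (A : Rep.{0, 0, 0} k G)

theorem mem_zpowers_pow_of_coprime (σ : G) (hσ : ∀ g : G, g ∈ Subgroup.zpowers σ) (t : ℕ)
    (ht : Nat.Coprime t (orderOf σ)) (g : G) : g ∈ Subgroup.zpowers (σ ^ t) := by
  have h1 : σ ∈ Subgroup.zpowers (σ ^ t) := by
    by_cases hn1 : 1 < orderOf σ
    · obtain ⟨m, -, hm⟩ := Nat.exists_mul_mod_eq_one_of_coprime ht hn1
      refine Subgroup.mem_zpowers_iff.mpr ⟨(m : ℤ), ?_⟩
      rw [zpow_natCast, ← pow_mul, ← pow_mod_orderOf, hm, pow_one]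
    · have hn0 : orderOf σ = 0 ∨ orderOf σ = 1 := by omega
      rcases hn0 with h0 | h0
      · rw [h0, Nat.coprime_zero_right] at ht
        rw [ht, pow_one]
        exact Subgroup.mem_zpowers σ
      · rw [orderOf_eq_one_iff] at h0
        rw [h0]
        exact one_mem _
  obtain ⟨z, rfl⟩ := Subgroup.mem_zpowers_iff.mp (hσ g)
  exact Subgroup.zpow_mem _ h1 z

/-- **CY5**: change of generator. -/
theorem cycClass_pow [Finite G] (σ : G) (hσ : ∀ g : G, g ∈ Subgroup.zpowers σ) (t : ℕ)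
    (ht : Nat.Coprime t (orderOf σ)) (a : A) (ha : ∀ g : G, A.ρ g a = a) :
    cycClass A (σ ^ t) (t • a) = cycClass A σ a := by
  cases nonempty_fintype G
  have hn : 0 < orderOf σ := orderOf_pos σ
  have hord : orderOf (σ ^ t) = orderOf σ := Nat.Coprime.orderOf_pow ht.symm
  have hn' : 0 < orderOf (σ ^ t) := orderOf_pos _
  have hσ' : ∀ g : G, g ∈ Subgroup.zpowers (σ ^ t) := mem_zpowers_pow_of_coprime σ hσ t ht
  have hta : ∀ g : G, A.ρ g (t • a) = t • a := fun g => by rw [map_nsmul, ha]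
  have hmem' := cycFun_mem A (σ ^ t) hn' hσ' (t • a) hta
  obtain ⟨-, hc⟩ := cycClass_sum A σ hn hσ ⟨_, hmem'⟩
  -- the index of `σ` with respect to the new generator
  have hs : cycIdx (σ ^ t) σ < orderOf (σ ^ t) := cycIdx_lt (σ ^ t) hn' σ (hσ' σ)
  have hs' : (σ ^ t) ^ cycIdx (σ ^ t) σ = σ := pow_cycIdx (σ ^ t) hn' σ (hσ' σ)
  have hmod : cycIdx (σ ^ t) σ * t ≡ 1 [MOD orderOf σ] := by
    have h1 : σ ^ (cycIdx (σ ^ t) σ * t) = σ ^ 1 := by
      rw [mul_comm, pow_mul, hs', pow_one]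
    exact pow_eq_pow_iff_modEq.mp h1
  have hsum : cycSum A σ (cycFun A (σ ^ t) (t • a)) (orderOf σ)
      = (cycIdx (σ ^ t) σ * t) • a := by
    unfold cycSum
    rw [← sum_univ_eq_sum_range σ hσ (fun g => cycFun A (σ ^ t) (t • a) (g, σ)),
      sum_univ_eq_sum_range (σ ^ t) hσ' (fun g => cycFun A (σ ^ t) (t • a) (g, σ)), mul_smul,
      ← sum_carry (t • a) (orderOf (σ ^ t)) (cycIdx (σ ^ t) σ) hs.le]
    refine Finset.sum_congr rfl fun m hm => ?_
    have hm' := Finset.mem_range.mp hm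
    simp only [cycFun]
    rw [cycIdx_pow, Nat.mod_eq_of_lt hm']
  rw [cycClass_eq A (σ ^ t) (t • a) hmem', hc]
  show cycClass A σ (cycSum A σ (cycFun A (σ ^ t) (t • a)) (orderOf σ)) = cycClass A σ a
  rw [hsum, cycClass_modEq A σ hn hσ a ha hmod, one_smul]

end Gen

/-- **Leaf CY2** of `CycDefs.lean`. -/
theorem leafCycSurj : LeafCycSurj := by
  intro k G _ _ _ A σ hσ x
  induction x using H2_induction_on with
  | h c =>
    obtain ⟨hinv, hc⟩ := cycClass_sum A σ (orderOf_pos σ) hσ c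
    exact ⟨_, hinv, hc.symm⟩

/-- **Leaf CY3** of `CycDefs.lean`. -/
theorem leafCycZero : LeafCycZero := by
  intro k G _ _ _ A σ hσ a ha
  have hn : 0 < orderOf σ := orderOf_pos σ
  constructor
  · intro h
    obtain ⟨b, hb⟩ := exists_cycNorm_of_cycClass_eq_zero A σ hn hσ a ha h
    refine ⟨b, ?_⟩
    rw [sum_univ_eq_sum_range σ hσ]
    exact hb
  · rintro ⟨b, rfl⟩
    rw [sum_univ_eq_sum_range σ hσ]
    exact cycClass_norm A σ hn hσ b

/-- **Leaf CY5** of `CycDefs.lean`. -/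
theorem leafCycGen : LeafCycGen := by
  intro k G _ _ _ A σ hσ t ht a ha
  exact cycClass_pow A σ hσ t ht a ha

end Fermat.Agent.S55.H37
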