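/-
S55 (Program C), package C8, SPEC v2 part 3, assembly (CLASS-H1) — helper37 (task 576).

`classH1_of : H29.PGroupHasseStatement p → H29.ClassH1Statement p` : for a `p`-group layer `K/k`
of number fields with `μ_p ⊆ k`, `H¹(Gal(K/k), C_K) = 0`.

Proof: long exact sequence of `0 → Kˣ → J_K → C_K → 0`:
`H¹(J_K) → H¹(C_K) → H²(Kˣ) → H²(J_K)`; `H¹(J_K) = 0` (D5, `H39.ideleH1Statement`); a class of
`H²(Kˣ)` which dies in `H²(J_K)` has all local invariants `0` (`H29.jinv_ideleDiag`), hence is `0`
by the Hasse principle; so the connecting map `H¹(C_K) → H²(Kˣ)` is zero and injective.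

`classH1Statement p : H29.ClassH1Statement p` is the unconditional form (with
`H52.pGroupHasseStatement`).
-/
import Fermat.Agent.S55.H29.C8Cls
import Fermat.Agent.S55.H39.IdeleFinal

set_option autoImplicit false

open CategoryTheory groupCohomology Rep

noncomputable section

namespace Fermat.Agent.S55.H37

open Fermat.Agent.S55.H88 Fermat.Agent.S55.H66 Fermat.Agent.S55.H29

attribute [local instance] factOfPrimes

/-- Abstract form: in a short exact sequence with `H¹(X₂) = 0` and `H²(X₁) → H²(X₂)` injective,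
`H¹(X₃) = 0`. -/
theorem isZero_H1_of_injective {G : Type} [Group G] {X : ShortComplex (Rep.{0, 0, 0} ℤ G)}
    (hX : X.ShortExact) (h1 : Limits.IsZero (groupCohomology X.X₂ 1))
    (hinj : ∀ α : groupCohomology X.X₁ 2, mapH2 X.f α = 0 → α = 0) :
    Limits.IsZero (groupCohomology X.X₃ 1) := by
  rw [ModuleCat.isZero_iff_subsingleton]
  refine ⟨fun a b => ?_⟩
  suffices key : ∀ c : groupCohomology X.X₃ 1, c = 0 by rw [key a, key b]
  intro c
  -- `δ c` dies in `H²(X₂)`, hence is `0`
  have h2 : mapH2 X.f ((δ hX 1 2 rfl).hom c) = 0 :=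
    congrArg (fun g => g.hom c) (mapShortComplex₁ hX (i := 1) (j := 2) rfl).zero
  have h3 : (δ hX 1 2 rfl).hom c = 0 := hinj _ h2
  -- so `c` comes from `H¹(X₂) = 0`
  obtain ⟨b, hb⟩ := (ShortComplex.moduleCat_exact_iff _).1
    (mapShortComplex₃_exact hX (i := 1) (j := 2) rfl) c h3
  have hs : Subsingleton (groupCohomology X.X₂ 1) := ModuleCat.subsingleton_of_isZero h1
  have hb0 : b = 0 := @Subsingleton.elim _ hs b 0
  rw [← hb, hb0]
  exact map_zero _

/-- `H¹(Gal(K/k), C_K) = 0` for a layer satisfying the Hasse principle. -/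
theorem isZero_H1_ideleClassRep_of_hasse (k K : Type) [Field k] [NumberField k] [Field K]
    [NumberField K] [Algebra k K] [IsGalois k K] (hH : (layerOf k K).Hasse) :
    Limits.IsZero (groupCohomology (ideleClassRep k K) 1) := by
  refine isZero_H1_of_injective (X := ideleShortComplex k K) (ideleShortComplex_shortExact k K)
    (Fermat.Agent.S55.H39.ideleH1Statement k K) fun α hα => ?_
  refine hH α fun v => ?_
  have h := jinv_ideleDiag k K v α
  rw [← h]
  have h2 : mapH2 (ideleDiag k K) α = 0 := hα
  rw [h2, map_zero]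

/-- **(CLASS-H1)** from the Hasse principle for `p`-group layers. -/
theorem classH1_of (p : ℕ) (hH : PGroupHasseStatement p) : ClassH1Statement p := by
  intro hp hp2 k K _ _ _ _ _ _ hζ hn
  exact isZero_H1_ideleClassRep_of_hasse k K (hH hp hp2 k K hζ hn)

end Fermat.Agent.S55.H37
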