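/-
S55 (Program C), package C8, leaf (CYC-GLOB) — helper37.

`cycGlobStatement : H29.CycGlobStatement` (verbatim, unconditional): a norm from the Kummer
algebra `k[X]/(X^p - g)` (`g` not a `p`-th power) is a norm from `K = k(β)`, `β ^ p = g`, in the
module-theoretic form `∑ s, ρ s b = a` used by CY3.

Route: `H83.kummerNormGroup_eq_range_norm_of_not_pow` (the Kummer algebra is `K`) and
`Algebra.norm_eq_prod_automorphisms`.
-/
import Fermat.Agent.S55.H29.C8Hasse

set_option autoImplicit false

open CategoryTheory groupCohomology Rep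

noncomputable section

namespace Fermat.Agent.S55.H37

open Fermat.Agent.S55.H88 Fermat.Agent.S55.H66 Fermat.Agent.S55.H29

/-- A unit of `k` which is not a `p`-th power of a unit is not a `p`-th power in `k`. -/
theorem forall_pow_ne_of_not_mem_pPow {k : Type*} [Field k] {p : ℕ} (hp : p ≠ 0) {g : kˣ}
    (hg : g ∉ H8.pPow p kˣ) (b : k) : b ^ p ≠ (g : k) := by
  intro hb
  have hb0 : b ≠ 0 := by
    rintro rfl
    rw [zero_pow hp] at hb
    exact g.ne_zero hb.symm
  exact hg ⟨Units.mk0 b hb0, Units.ext hb⟩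

/-- The module `Kˣ` of the layer `K / k`, additively. -/
def unitsAddEquiv (k K : Type) [Field k] [Field K] [Algebra k K] :
    Rep.ofAlgebraAutOnUnits k K ≃+ Additive Kˣ :=
  Rep.toAdditive

/-- A unit of `K` as an element of the module `Kˣ`. -/
def unitOfTop (k K : Type) [Field k] [Field K] [Algebra k K] (u : Kˣ) :
    Rep.ofAlgebraAutOnUnits k K :=
  (unitsAddEquiv k K).symm (Additive.ofMul u)

theorem unitOfTop_map (k K : Type) [Field k] [Field K] [Algebra k K] (a : kˣ) :
    unitOfTop k K (Units.map (algebraMap k K : k →* K) a) = unitOfBase k K a := rfl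

theorem unitsAddEquiv_rho (k K : Type) [Field k] [Field K] [Algebra k K] (s : K ≃ₐ[k] K)
    (x : Rep.ofAlgebraAutOnUnits k K) :
    ((Additive.toMul (unitsAddEquiv k K ((Rep.ofAlgebraAutOnUnits k K).ρ s x)) : Kˣ) : K)
      = s ((Additive.toMul (unitsAddEquiv k K x) : Kˣ) : K) := rfl

/-- The norm of a unit of `K` as a sum over the Galois group in the module `Kˣ`. -/
theorem finsum_rho_unitOfTop (k K : Type) [Field k] [Field K] [Algebra k K]
    [FiniteDimensional k K] [IsGalois k K] (u : Kˣ) (a : kˣ)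
    (hu : Algebra.norm k (u : K) = (a : k)) :
    ∑ᶠ s : K ≃ₐ[k] K, (Rep.ofAlgebraAutOnUnits k K).ρ s (unitOfTop k K u) = unitOfBase k K a := by
  classical
  rw [finsum_eq_sum_of_fintype]
  apply (unitsAddEquiv k K).injective
  apply Additive.toMul.injective
  apply Units.ext
  have h1 : algebraMap k K (Algebra.norm k (u : K)) = ∏ s : K ≃ₐ[k] K, s (u : K) :=
    Algebra.norm_eq_prod_automorphisms k (u : K)
  have h2 : ((Additive.toMul (unitsAddEquiv k K (∑ s : K ≃ₐ[k] K,
      (Rep.ofAlgebraAutOnUnits k K).ρ s (unitOfTop k K u))) : Kˣ) : K)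
        = ∏ s : K ≃ₐ[k] K, s (u : K) := by
    rw [map_sum, toMul_sum, Units.coe_prod]
    rfl
  rw [h2, ← h1, hu]
  rfl

/-- **(CYC-GLOB)**, verbatim. -/
theorem cycGlobStatement : CycGlobStatement := by
  intro k K _ _ _ _ _ _ p hp hdeg g hg β hβ a ha
  have : FiniteDimensional k K := Module.finite_of_finrank_pos (by rw [hdeg]; exact hp.pos)
  rw [H83.kummerNormGroup_eq_range_norm_of_not_pow hp
    (forall_pow_ne_of_not_mem_pPow hp.ne_zero hg) β hβ hdeg] at ha
  obtain ⟨u, rfl⟩ := ha
  exact ⟨unitOfTop k K u, finsum_rho_unitOfTop k K u _ rfl⟩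

end Fermat.Agent.S55.H37
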