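/-
S55 (Program C), package C8, leaf (PRIME) — helper37.

The Hasse principle for Kummer layers of prime degree `p` (`H29.PrimeHasseStatement p`) from the
three leaves `H29.HasseNormStatement` (HNT), `H29.CycLocStatement` (CYC-LOC) and
`H29.CycGlobStatement` (CYC-GLOB), using CY2 / CY3 (`H37.leafCycSurj`, `H37.leafCycZero`) and
Kummer theory (`exists_root_adjoin_eq_top_of_isCyclic`).

* `exists_unitOfBase_of_invariant` : the invariants of `Kˣ` are the units of `k`;
* `exists_kummer_generator` : a Galois layer of prime degree `p` over `k ∋ ζ_p` is `k(β)`,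
  `β ^ p = g ∈ kˣ`, `g` not a `p`-th power;
* `primeHasse_of` : the assembly.
-/
import Fermat.Agent.S55.H29.C8Hasse
import Fermat.Agent.S55.H37.CycClass

set_option autoImplicit false

open CategoryTheory groupCohomology Rep

noncomputable section

namespace Fermat.Agent.S55.H37

open Fermat.Agent.S55.H88 Fermat.Agent.S55.H66 Fermat.Agent.S55.H29

attribute [local instance] factOfPrimes

/-- The invariants of `Kˣ` under `Gal(K/k)` are the units of `k`. -/
theorem exists_unitOfBase_of_invariant (k K : Type) [Field k] [Field K] [Algebra k K]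
    [FiniteDimensional k K] [IsGalois k K] (x : Rep.ofAlgebraAutOnUnits k K)
    (hx : ∀ s : K ≃ₐ[k] K, (Rep.ofAlgebraAutOnUnits k K).ρ s x = x) :
    ∃ a : kˣ, unitOfBase k K a = x := by
  have h1 : ∀ s : K ≃ₐ[k] K,
      s ((Additive.toMul (Rep.toAdditive x) : Kˣ) : K) = ((Additive.toMul (Rep.toAdditive x) : Kˣ) : K) :=
    fun s => congrArg (fun y => ((Additive.toMul (Rep.toAdditive y) : Kˣ) : K)) (hx s)
  obtain ⟨c, hc⟩ := (IsGalois.mem_range_algebraMap_iff_fixed (F := k) (E := K) _).2 h1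
  have hc0 : c ≠ 0 := by
    rintro rfl
    rw [map_zero] at hc
    exact (Additive.toMul (Rep.toAdditive x) : Kˣ).ne_zero hc.symm
  refine ⟨Units.mk0 c hc0, ?_⟩
  apply Rep.toAdditive.injective
  apply Additive.toMul.injective
  apply Units.ext
  exact hc

/-- Kummer theory in degree `p`: a Galois layer of prime degree `p` over a field containing a
primitive `p`-th root of unity is generated by a `p`-th root of a non-`p`-th power. -/
theorem exists_kummer_generator (k K : Type) [Field k] [Field K] [Algebra k K] [IsGalois k K]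
    (p : ℕ) (hp : p.Prime) (hζ : ∃ ζ : k, IsPrimitiveRoot ζ p) (hdeg : Module.finrank k K = p) :
    ∃ (g : kˣ) (β : K), g ∉ H8.pPow p kˣ ∧ β ^ p = algebraMap k K g := by
  have : FiniteDimensional k K := Module.finite_of_finrank_pos (by rw [hdeg]; exact hp.pos)
  have : IsCyclic (K ≃ₐ[k] K) := by
    have h : Nat.card (K ≃ₐ[k] K) = p := by rw [IsGalois.card_aut_eq_finrank, hdeg]
    have : Fact p.Prime := ⟨hp⟩
    exact isCyclic_of_prime_card h
  obtain ⟨ζ, hζ⟩ := hζ
  have hne : (primitiveRoots (Module.finrank k K) k).Nonempty := by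
    rw [hdeg]
    exact ⟨ζ, (mem_primitiveRoots hp.pos).2 hζ⟩
  obtain ⟨β, ⟨g0, hg0⟩, htop⟩ := exists_root_adjoin_eq_top_of_isCyclic k K hne
  rw [hdeg] at hg0
  -- `β ∉ k`
  have hβ : β ∉ Set.range (algebraMap k K) := by
    intro hmem
    have h1 : IntermediateField.adjoin k {β} = ⊥ :=
      IntermediateField.adjoin_simple_eq_bot_iff.2 (IntermediateField.mem_bot.2 hmem)
    rw [htop] at h1
    have h2 : Module.finrank k K = 1 := by
      rw [← IntermediateField.finrank_top', h1, IntermediateField.finrank_bot]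
    rw [hdeg] at h2
    exact hp.one_lt.ne' h2
  have hg00 : g0 ≠ 0 := by
    rintro rfl
    rw [map_zero] at hg0
    exact hβ ⟨0, by rw [map_zero, pow_eq_zero_iff hp.ne_zero |>.1 hg0.symm]⟩
  refine ⟨Units.mk0 g0 hg00, β, ?_, hg0.symm⟩
  rintro ⟨c, hc⟩
  -- `β ^ p = c ^ p`, so `β = c ζ ^ i`
  have hc' : (c : k) ^ p = g0 := by
    have := congrArg (fun u : kˣ => (u : k)) hc
    simpa using this
  have hζK : IsPrimitiveRoot (algebraMap k K ζ) p := hζ.map_of_injective (algebraMap k K).injective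
  have hc0 : algebraMap k K (c : k) ≠ 0 := by
    rw [Ne, map_eq_zero]
    exact c.ne_zero
  have h3 : (β / algebraMap k K (c : k)) ^ p = 1 := by
    rw [div_pow, ← map_pow, hc', hg0, div_self]
    rw [← hg0]
    rw [Ne, map_eq_zero]
    exact hg00
  have : NeZero p := ⟨hp.ne_zero⟩
  obtain ⟨i, -, hi⟩ := hζK.eq_pow_of_pow_eq_one h3
  refine hβ ⟨ζ ^ i * (c : k), ?_⟩
  rw [map_mul, map_pow, hi, div_mul_cancel₀ _ hc0]

/-- **(PRIME)** : the Hasse principle for Kummer layers of prime degree from the Hasse norm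
theorem (HNT), the local cyclic leaf (CYC-LOC) and the global cyclic leaf (CYC-GLOB). -/
theorem primeHasse_of (hHNT : HasseNormStatement) (hLoc : CycLocStatement)
    (hGlob : CycGlobStatement) (p : ℕ) : PrimeHasseStatement p := by
  intro hp hp2 k K _ _ _ _ _ _ hζ hdeg
  have : FiniteDimensional k K := Module.finite_of_finrank_pos (by rw [hdeg]; exact hp.pos)
  have hcard : Nat.card (K ≃ₐ[k] K) = p := by rw [IsGalois.card_aut_eq_finrank, hdeg]
  have : Fact p.Prime := ⟨hp⟩
  have : IsCyclic (K ≃ₐ[k] K) := isCyclic_of_prime_card hcard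
  obtain ⟨σ, hσ⟩ := IsCyclic.exists_generator (α := K ≃ₐ[k] K)
  obtain ⟨g, β, hg, hβ⟩ := exists_kummer_generator k K p hp hζ hdeg
  obtain ⟨ζ, hζ⟩ := hζ
  intro α hα
  -- CY2
  obtain ⟨x, hx, rfl⟩ := leafCycSurj ℤ (K ≃ₐ[k] K) (Rep.ofAlgebraAutOnUnits k K) σ hσ α
  obtain ⟨a, rfl⟩ := exists_unitOfBase_of_invariant k K x hx
  -- CYC-LOC + HNT
  have hloc : ∀ v : FinPlace k, finLoc k v a ∈ H8.finNloc k p g v := fun v =>
    hLoc k K p hp hp2 hdeg ζ hζ g hg β hβ σ hσ a v (hα v)
  have hnorm : a ∈ H8.kummerNormGroup p (g : k) := hHNT k p hp hp2 ζ hζ g hg a hloc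
  -- CYC-GLOB + CY3
  obtain ⟨b, hb⟩ := hGlob k K p hp hdeg g hg β hβ a hnorm
  have : Fintype (K ≃ₐ[k] K) := Fintype.ofFinite _
  refine (leafCycZero ℤ (K ≃ₐ[k] K) (Rep.ofAlgebraAutOnUnits k K) σ hσ _ hx).2 ⟨b, ?_⟩
  rw [← hb, finsum_eq_sum_of_fintype]

end Fermat.Agent.S55.H37
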