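/-
S55 (Program C), package C8, SPEC v2 part 3 — helper37 (task 576).

`classH1Statement p : H29.ClassH1Statement p`, UNCONDITIONAL: `H¹(Gal(K/k), C_K) = 0` for
`p`-group layers of number fields over `k ∋ μ_p`, `p` odd
(`H37.classH1_of` + `H52.pGroupHasseStatement`).
-/
import Fermat.Agent.S55.H37.ClassH1
import Fermat.Agent.S55.H52.C8HasseFinal

set_option autoImplicit false

namespace Fermat.Agent.S55.H37

open Fermat.Agent.S55.H29

/-- **(CLASS-H1)**, verbatim and unconditional. -/
theorem classH1Statement (p : ℕ) : ClassH1Statement p :=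
  classH1_of p (Fermat.Agent.S55.H52.pGroupHasseStatement p)

end Fermat.Agent.S55.H37
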