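/-
S55 (Program C), package C8, SPEC v2 part 3, assembly (CLASS-PBOUND) — helper37 (task 580).

`classPBound_of : ClassCycStatement p → ClassH1Statement p → ClassInfResStatement →
ClassPBoundStatement p` : `#H²(Gal(K/k), C_K) ∣ [K : k]` for `p`-group layers of number fields
over `k ∋ μ_p`.

Proof: induction on `n`, `[K : k] = p ^ n`.
* `n = 0` : the Galois group is trivial, and `H²` is killed by its order
  (`H80.card_smul_eq_zero`).
* `n + 1` : `N ⊴ Gal(K/k)` of index `p` (`H45.exists_normal_index_prime`), `K₁` its fixed field: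
  `K₁/k` is cyclic of degree `p` (CLASS-CYC: `#H²(C_{K₁}) = p`), `K/K₁` has degree `p ^ n`
  (induction; CLASS-H1 gives the hypothesis of CLASS-INFRES), and inflation–restriction is exact
  (`H45.natCard_dvd_mul_of_exact`).
-/
import Fermat.Agent.S55.H29.C8Cls
import Fermat.Agent.S55.H45.PrimeLayers

set_option autoImplicit false

open CategoryTheory groupCohomology Rep

noncomputable section

namespace Fermat.Agent.S55.H37

open Fermat.Agent.S55.H88 Fermat.Agent.S55.H66 Fermat.Agent.S55.H29

attribute [local instance] factOfPrimes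

/-- **(CLASS-PBOUND)** from CLASS-CYC, CLASS-H1 and CLASS-INFRES. -/
theorem classPBound_of (p : ℕ) (hCyc : ClassCycStatement p) (hH1 : ClassH1Statement p)
    (hIR : ClassInfResStatement) : ClassPBoundStatement p := by
  intro hp hp2 n
  induction n with
  | zero =>
    intro k K _ _ _ _ _ _ _ hn
    have hcard : Nat.card (K ≃ₐ[k] K) = 1 := by
      rw [IsGalois.card_aut_eq_finrank, hn, pow_zero]
    have hsub : Subsingleton (groupCohomology (ideleClassRep k K) 2) := ⟨fun a b => by
      have ha := Fermat.Agent.S55.H80.card_smul_eq_zero (ideleClassRep k K) 2 (Or.inr rfl) a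
      have hb := Fermat.Agent.S55.H80.card_smul_eq_zero (ideleClassRep k K) 2 (Or.inr rfl) b
      rw [hcard, one_smul] at ha hb
      rw [ha, hb]⟩
    rw [pow_zero, Nat.card_of_subsingleton (0 : groupCohomology (ideleClassRep k K) 2)]
  | succ n ih =>
    intro k K _ _ _ _ _ _ hζ hn
    obtain ⟨ζ, hζ⟩ := hζ
    have hcard : Nat.card (K ≃ₐ[k] K) = p ^ (n + 1) := by
      rw [IsGalois.card_aut_eq_finrank, hn]
    obtain ⟨N, hNn, hN, -⟩ := Fermat.Agent.S55.H45.exists_normal_index_prime hp hcard
    have hK₁K : Module.finrank (IntermediateField.fixedField N) K = p ^ n := by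
      rw [IntermediateField.finrank_fixedField_eq_card, hN]
    have hkK₁ : Module.finrank k (IntermediateField.fixedField N) = p := by
      have h := Module.finrank_mul_finrank k (IntermediateField.fixedField N) K
      rw [hK₁K, hn, pow_succ'] at h
      exact Nat.eq_of_mul_eq_mul_right (pow_pos hp.pos n) h
    have hζ₁ : IsPrimitiveRoot (algebraMap k (IntermediateField.fixedField N) ζ) p :=
      hζ.map_of_injective (algebraMap k _).injective
    have hcyc : IsCyclic (IntermediateField.fixedField N ≃ₐ[k] IntermediateField.fixedField N) := by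
      have : Fact p.Prime := ⟨hp⟩
      exact isCyclic_of_prime_card (by rw [IsGalois.card_aut_eq_finrank, hkK₁])
    have h1 : Nat.card (groupCohomology (ideleClassRep k (IntermediateField.fixedField N)) 2)
        = p ^ 1 :=
      (hCyc hp hp2 k (IntermediateField.fixedField N) ⟨ζ, hζ⟩ 1 (by rw [pow_one]; exact hkK₁)).2
    have h2 : Nat.card (groupCohomology (ideleClassRep (IntermediateField.fixedField N) K) 2)
        ∣ p ^ n :=
      ih (IntermediateField.fixedField N) K ⟨_, hζ₁⟩ hK₁K
    have h3 : Limits.IsZero
        (groupCohomology (ideleClassRep (IntermediateField.fixedField N) K) 1) :=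
      hH1 hp hp2 (IntermediateField.fixedField N) K ⟨_, hζ₁⟩ ⟨n, hK₁K⟩
    obtain ⟨-, hex⟩ := hIR k (IntermediateField.fixedField N) K h3
    have h4 := Fermat.Agent.S55.H45.natCard_dvd_mul_of_exact
      (groupCohomology.map (AlgEquiv.restrictNormalHom (F := k) (K₁ := K)
        (IntermediateField.fixedField N))
        (classInfl k (IntermediateField.fixedField N) K) 2).hom.toAddMonoidHom
      (groupCohomology.map (subGal k (IntermediateField.fixedField N) K)
        (classSub k (IntermediateField.fixedField N) K) 2).hom.toAddMonoidHom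
      hex (a := p ^ 1) (b := p ^ n) (pow_ne_zero _ hp.ne_zero) (pow_ne_zero _ hp.ne_zero)
      h1.dvd h2
    rw [pow_succ']
    rw [pow_one] at h4
    exact h4

end Fermat.Agent.S55.H37
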