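/-
S55 (Program C), package C8, SPEC v2 part 3, assembly (CYC-KER) — helper37 (task 578).

`cycKer_of : CyclicExStatement p → JFinStatement → JAdmStatement → JDetectStatement →
CycKerStatement p` : in a cyclic layer of `p`-power degree over `k ∋ μ_p`, an idele class whose
local invariants add up to `0` comes from `H²(Gal(K/k), Kˣ)`.

Proof: existence (B3) for the family `t v := jinv v y` (finite support: J-FIN; killed by the
local degrees: J-ADM) gives `α` with `linv v α = jinv v y`; then `mapH2 ideleDiag α - y` has all
local invariants `0` (`jinv_ideleDiag`), hence is `0` (J-DETECT).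
-/
import Fermat.Agent.S55.H29.C8Cls

set_option autoImplicit false

open CategoryTheory groupCohomology Rep

noncomputable section

namespace Fermat.Agent.S55.H37

open Fermat.Agent.S55.H88 Fermat.Agent.S55.H66 Fermat.Agent.S55.H29

attribute [local instance] factOfPrimes

/-- Layer form: if existence holds for the layer `K/k`, an idele class whose local invariants
are finitely supported, killed by the local degrees and add up to `0` comes from
`H²(Gal(K/k), Kˣ)`, provided idele classes are detected by their local invariants. -/
theorem exists_mapH2_ideleDiag_eq (k K : Type) [Field k] [NumberField k] [Field K]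
    [NumberField K] [Algebra k K] [IsGalois k K] (hEx : (layerOf k K).Ex (locDegAt k K))
    (hDet : ∀ y : groupCohomology (ideleRep k K) 2, (∀ v : FinPlace k, jinv k K v y = 0) → y = 0)
    (y : groupCohomology (ideleRep k K) 2)
    (hfin : (Function.support fun v : FinPlace k => jinv k K v y).Finite)
    (hadm : ∀ v : FinPlace k, locDegAt k K v • jinv k K v y = 0)
    (hsum : ∑ᶠ v : FinPlace k, jinv k K v y = 0) :
    ∃ α : groupCohomology (Rep.ofAlgebraAutOnUnits k K) 2, mapH2 (ideleDiag k K) α = y := by
  obtain ⟨α, hα⟩ := hEx (fun v => jinv k K v y) hfin hadm hsum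
  refine ⟨α, ?_⟩
  have h0 : mapH2 (ideleDiag k K) α - y = 0 := hDet _ fun v => by
    rw [map_sub, jinv_ideleDiag, hα v, sub_self]
  exact sub_eq_zero.1 h0

/-- **(CYC-KER)** from (B3), J-FIN, J-ADM, J-DETECT. -/
theorem cycKer_of (p : ℕ) (hEx : CyclicExStatement p) (hFin : JFinStatement)
    (hAdm : JAdmStatement) (hDet : JDetectStatement) : CycKerStatement p := by
  intro hp hp2 k K _ _ _ _ _ _ _ hζ hn y hy
  exact exists_mapH2_ideleDiag_eq k K (hEx hp hp2 k K hζ hn) (hDet k K) y (hFin k K y)
    (hAdm k K y) hy

end Fermat.Agent.S55.H37
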