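/-
S55 (Program C), package C8, leaf (CYC-LOC) — helper37.

`cycLocStatement : H29.CycLocStatement` (verbatim, unconditional): in a Kummer layer `K = k(β)`,
`β ^ p = g`, if the local invariant at `v` of the cyclic class of `a ∈ kˣ` vanishes, then `a` is a
local norm at `v` (an element of the Kummer norm group of `g` over `k_v`).

Route, at `τ' : K →+* PadicAlgCl q` with `F = k_v = locBase`, `L = K_w = locExt`:
* if `g` is a `p`-th power in `F`, the Kummer norm group is everything
  (`H83.normTopOfPowStatement`);
* otherwise `X^p - g` is irreducible over `F`, so `p ≤ [L : F] = #Gal(L/F) ≤ #Gal(K/k) = p` and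
  the decomposition map `locGalToGlobal` is bijective; CY6 (`H80.leafCycRes`) identifies the
  localised class with `cycClass τ a_v`; injectivity of `H66.inv` (`H66.c3_inv`) and CY3
  (`H37.leafCycZero`) give `a_v ∈ N_{L/F} Lˣ`, which is the Kummer norm group
  (`H83.kummerNormGroup_eq_range_norm_of_not_pow`).
-/
import Fermat.Agent.S55.H29.C8Hasse
import Fermat.Agent.S55.H37.CycClass
import Fermat.Agent.S55.H37.CycGlob
import Fermat.Agent.S55.H71.LocGal
import Fermat.Agent.S55.H80.CycRes
import Fermat.Agent.S55.H66.C3Main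

set_option autoImplicit false
set_option linter.unusedSectionVars false

open CategoryTheory groupCohomology Rep Polynomial

noncomputable section

namespace Fermat.Agent.S55.H37

open Fermat.Agent.S55.H88 Fermat.Agent.S55.H66 Fermat.Agent.S55.H29

attribute [local instance] factOfPrimes

/-- The element of `Kˣ` underlying a sum over the Galois group is the norm. -/
theorem coe_sum_rho_units (k K : Type) [Field k] [Field K] [Algebra k K]
    [FiniteDimensional k K] [IsGalois k K] (b : Rep.ofAlgebraAutOnUnits k K) :
    ((Additive.toMul (unitsAddEquiv k K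
        (∑ s : K ≃ₐ[k] K, (Rep.ofAlgebraAutOnUnits k K).ρ s b)) : Kˣ) : K)
      = algebraMap k K (Algebra.norm k ((Additive.toMul (unitsAddEquiv k K b) : Kˣ) : K)) := by
  rw [Algebra.norm_eq_prod_automorphisms, map_sum, toMul_sum, Units.coe_prod]
  rfl

/-- Elements of `kˣ` are invariant in `Kˣ`. -/
theorem rho_unitOfBase (k K : Type) [Field k] [Field K] [Algebra k K] (a : kˣ)
    (s : K ≃ₐ[k] K) :
    (Rep.ofAlgebraAutOnUnits k K).ρ s (unitOfBase k K a) = unitOfBase k K a := by
  apply (unitsAddEquiv k K).injective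
  apply Additive.toMul.injective
  apply Units.ext
  exact s.commutes (a : k)

section Local

variable (q : ℕ) [Fact q.Prime] (k : Type) {K : Type} [Field k] [Field K] [Algebra k K]
  (τ' : K →+* PadicAlgCl q)

/-- The decomposition map `Gal(K_w / k_v) → Gal(K / k)` is injective. -/
theorem locGalToGlobal_injective [Normal k K] : Function.Injective (locGalToGlobal q k τ') := by
  rw [injective_iff_map_eq_one]
  intro α hα
  have h : (α : locExt q k τ' →ₐ[locBase q k τ'] locExt q k τ') = AlgHom.id _ _ := by
    apply H71.algHom_ext_locExt q (k := k) τ'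
    intro x
    show α (locExtEmb q k τ' x) = locExtEmb q k τ' x
    rw [locGalToGlobal_spec, hα]
    rfl
  exact AlgEquiv.ext fun y =>
    congrArg (fun φ : locExt q k τ' →ₐ[locBase q k τ'] locExt q k τ' => φ y) h

variable [NumberField k] [NumberField K]

theorem finiteDimensional_locExt_h88 :
    FiniteDimensional (locBase q k τ') (locExt q k τ') :=
  H71.finiteDimensional_locExt q (k := k) τ'

theorem isGalois_locExt_h88 [Normal k K] : IsGalois (locBase q k τ') (locExt q k τ') := ⟨⟩

/-- The local invariant of `K_w / k_v` is injective (C3). -/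
theorem inv_locExt_injective [Normal k K] :
    Function.Injective (H66.inv q (locExt q k τ')) := by
  have := finiteDimensional_locExt_h88 q k τ'
  have := isGalois_locExt_h88 q k τ'
  exact (H66.c3_inv q (locBase q k τ') (locExt q k τ')).2.1

/-- **Core of (CYC-LOC)** at an arbitrary embedding `τ'` of `K`. -/
theorem cycLoc_core [IsGalois k K] (p : ℕ) (hp : p.Prime) (hdeg : Module.finrank k K = p)
    (ζ : k) (hζ : IsPrimitiveRoot ζ p) (g : kˣ) (β : K) (hβ : β ^ p = algebraMap k K g)
    (σ : K ≃ₐ[k] K) (hσ : ∀ τ : K ≃ₐ[k] K, τ ∈ Subgroup.zpowers σ) (a : kˣ)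
    (h : linvAt q k τ' (cycClass (Rep.ofAlgebraAutOnUnits k K) σ (unitOfBase k K a)) = 0) :
    Units.map (locEmb q (τ'.comp (algebraMap k K))).toMonoidHom a ∈
      H8.kummerNormGroup p (locEmb q (τ'.comp (algebraMap k K)) (g : k)) := by
  classical
  have : FiniteDimensional k K := Module.finite_of_finrank_pos (by rw [hdeg]; exact hp.pos)
  have := finiteDimensional_locExt_h88 q k τ'
  have := isGalois_locExt_h88 q k τ'
  by_cases hpow : ∃ c : locBase q k τ', c ^ p = locEmb q (τ'.comp (algebraMap k K)) (g : k)
  · obtain ⟨c, hc⟩ := hpow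
    have hgv0 : locEmb q (τ'.comp (algebraMap k K)) (g : k) ≠ 0 := by
      rw [Ne, map_eq_zero]
      exact g.ne_zero
    have hc0 : c ≠ 0 := by
      rintro rfl
      rw [zero_pow hp.ne_zero] at hc
      exact hgv0 hc.symm
    have hζv : IsPrimitiveRoot (locEmb q (τ'.comp (algebraMap k K)) ζ) p :=
      hζ.map_of_injective (locEmb q (τ'.comp (algebraMap k K))).injective
    have h1 := H83.normTopOfPowStatement p hp (locBase q k τ') _ hζv (Units.mk0 c hc0)
    rw [Units.val_mk0, hc] at h1
    rw [h1]
    exact Subgroup.mem_top _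
  · rw [not_exists] at hpow
    -- the root of `X^p - g` in `K_w`
    have hβL : (locExtEmb q k τ' β) ^ p = algebraMap (locBase q k τ') (locExt q k τ')
        (locEmb q (τ'.comp (algebraMap k K)) (g : k)) := by
      rw [← map_pow, hβ]
      rfl
    have hirr : Irreducible (X ^ p - C (locEmb q (τ'.comp (algebraMap k K)) (g : k)) :
        (locBase q k τ')[X]) := X_pow_sub_C_irreducible_of_prime hp hpow
    have hle : p ≤ Module.finrank (locBase q k τ') (locExt q k τ') := by
      have hmin : minpoly (locBase q k τ') (locExtEmb q k τ' β)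
          = X ^ p - C (locEmb q (τ'.comp (algebraMap k K)) (g : k)) := by
        symm
        apply minpoly.eq_of_irreducible_of_monic hirr
        · rw [map_sub, map_pow, aeval_X, aeval_C, hβL, sub_self]
        · exact monic_X_pow_sub_C _ hp.ne_zero
      have h1 := minpoly.natDegree_le (A := locBase q k τ') (locExtEmb q k τ' β)
      rw [hmin, natDegree_X_pow_sub_C] at h1
      exact h1
    have hinj := locGalToGlobal_injective q k τ'
    have hcardG : Nat.card (K ≃ₐ[k] K) = p := by rw [IsGalois.card_aut_eq_finrank, hdeg]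
    have hcardD : Nat.card (locExt q k τ' ≃ₐ[locBase q k τ'] locExt q k τ')
        = Module.finrank (locBase q k τ') (locExt q k τ') := IsGalois.card_aut_eq_finrank _ _
    have hcard_le : Nat.card (locExt q k τ' ≃ₐ[locBase q k τ'] locExt q k τ')
        ≤ Nat.card (K ≃ₐ[k] K) := Nat.card_le_card_of_injective _ hinj
    have hfr : Module.finrank (locBase q k τ') (locExt q k τ') = p := by omega
    have hbij : Function.Bijective (locGalToGlobal q k τ') :=
      (Nat.bijective_iff_injective_and_card _).2 ⟨hinj, by rw [hcardD, hfr, hcardG]⟩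
    obtain ⟨τ, hτ⟩ := hbij.2 σ
    have hτgen : ∀ α : locExt q k τ' ≃ₐ[locBase q k τ'] locExt q k τ',
        α ∈ Subgroup.zpowers τ := by
      intro α
      obtain ⟨n, hn⟩ := Subgroup.mem_zpowers_iff.1 (hσ (locGalToGlobal q k τ' α))
      refine Subgroup.mem_zpowers_iff.2 ⟨n, hinj ?_⟩
      rw [map_zpow, hτ, hn]
    have hord : 1 * orderOf τ = orderOf σ := by
      rw [one_mul, ← hτ, orderOf_injective _ hinj]
    -- CY6
    have h6 := H80.leafCycRes ℤ (K ≃ₐ[k] K) (locExt q k τ' ≃ₐ[locBase q k τ'] locExt q k τ')
      (Rep.ofAlgebraAutOnUnits k K) (Rep.ofAlgebraAutOnUnits (locBase q k τ') (locExt q k τ'))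
      (locGalToGlobal q k τ') (globalToLocUnits q k τ') σ τ 1 hσ hτgen hinj
      (by rw [hτ, pow_one]) hord (unitOfBase k K a) (rho_unitOfBase k K a)
    have h0 : locH2At q k τ' (cycClass (Rep.ofAlgebraAutOnUnits k K) σ (unitOfBase k K a)) = 0 :=
      inv_locExt_injective q k τ' (by rw [map_zero]; exact h)
    have h7 : cycClass (Rep.ofAlgebraAutOnUnits (locBase q k τ') (locExt q k τ')) τ
        ((globalToLocUnits q k τ').hom (unitOfBase k K a)) = 0 := by
      rw [← h6]
      exact h0
    -- CY3
    have hinvt : ∀ s : locExt q k τ' ≃ₐ[locBase q k τ'] locExt q k τ',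
        (Rep.ofAlgebraAutOnUnits (locBase q k τ') (locExt q k τ')).ρ s
          ((globalToLocUnits q k τ').hom (unitOfBase k K a))
          = (globalToLocUnits q k τ').hom (unitOfBase k K a) := by
      intro s
      apply (unitsAddEquiv (locBase q k τ') (locExt q k τ')).injective
      apply Additive.toMul.injective
      apply Units.ext
      exact s.commutes (locEmb q (τ'.comp (algebraMap k K)) (a : k))
    obtain ⟨b, hb⟩ := (leafCycZero ℤ (locExt q k τ' ≃ₐ[locBase q k τ'] locExt q k τ')
      (Rep.ofAlgebraAutOnUnits (locBase q k τ') (locExt q k τ')) τ hτgen _ hinvt).1 h7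
    have h8 := coe_sum_rho_units (locBase q k τ') (locExt q k τ') b
    rw [hb] at h8
    have h9 : Algebra.norm (locBase q k τ')
        ((Additive.toMul (unitsAddEquiv (locBase q k τ') (locExt q k τ') b) :
          (locExt q k τ')ˣ) : locExt q k τ')
        = locEmb q (τ'.comp (algebraMap k K)) (a : k) :=
      (algebraMap (locBase q k τ') (locExt q k τ')).injective h8.symm
    rw [H83.kummerNormGroup_eq_range_norm_of_not_pow hp hpow (locExtEmb q k τ' β) hβL hfr]
    exact ⟨Additive.toMul (unitsAddEquiv (locBase q k τ') (locExt q k τ') b), Units.ext h9⟩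

/-- **(CYC-LOC)**, verbatim. -/
theorem cycLocStatement : CycLocStatement := by
  intro k K _ _ _ _ _ _ p hp hp2 hdeg ζ hζ g hg β hβ σ hσ a v h
  have h1 := cycLoc_core (v.1 : ℕ) k (v.ext K) p hp hdeg ζ hζ g β hβ σ hσ a h
  rw [FinPlace.ext_comp] at h1
  exact h1

end Local

end Fermat.Agent.S55.H37
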