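/-
Program C (S55), packages C1/C8 (helper37): cohomology of a CYCLIC layer through cyclic classes.

For a finite cyclic group `G = ⟨σ⟩` and a short exact sequence `0 → U → J → C → 0` of
`G`-representations (in the application: `S`-units, `S`-ideles, `S`-idele classes of the top
field of a cyclic layer):

* `map_cycClass`            : naturality of `cycClass` in the module;
* `isZero_H1_of_normPrinciple` (A): if `H¹(G, J) = 0` and every invariant `u ∈ U` whose image in
  `J` is a norm is itself a norm (the "norm principle"), then `H¹(G, C) = 0`;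
* `natCard_H2_dvd_of_relIndex` (B): if `H¹(G, U) = 0` and the index of `f(U^G) + N_G(J)` in `J^G`
  divides `n`, then `#H²(G, C) ∣ n`;
* `ker_eq_of_count` : the finite counting lemma behind the norm principle for `S`-units.

No Herbrand quotient of `C` is needed.
-/
import Mathlib
import Fermat.Agent.S55.H37.CycClass

set_option autoImplicit false

noncomputable section

namespace Fermat.Agent.S55.H37

open CategoryTheory groupCohomology Rep Fermat.Agent.S55.H66

section Naturality

variable {k G : Type} [CommRing k] [Group G]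

theorem cycFun_comp {A B : Rep.{0, 0, 0} k G} (f : A ⟶ B) (σ : G) (a : A) (x : G × G) :
    f.hom (cycFun A σ a x) = cycFun B σ (f.hom a) x := by
  simp only [cycFun]
  split_ifs
  · rfl
  · exact map_zero _

theorem rho_map_of_invariant {A B : Rep.{0, 0, 0} k G} (f : A ⟶ B) (a : A)
    (ha : ∀ g : G, A.ρ g a = a) (g : G) : B.ρ g (f.hom a) = f.hom a := by
  rw [← hom_comm_apply, ha]

/-- Naturality of the cyclic class in the module. -/
theorem map_cycClass {A B : Rep.{0, 0, 0} k G} (f : A ⟶ B) (σ : G) (hn : 0 < orderOf σ)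
    (hσ : ∀ g : G, g ∈ Subgroup.zpowers σ) (a : A) (ha : ∀ g : G, A.ρ g a = a) :
    ((functor k G 2).map f).hom (cycClass A σ a) = cycClass B σ (f.hom a) := by
  have hb := rho_map_of_invariant f a ha
  have hA := cycFun_mem A σ hn hσ a ha
  have hB := cycFun_mem B σ hn hσ (f.hom a) hb
  rw [cycClass_eq A σ a hA, cycClass_eq B σ _ hB]
  have h := H2π_comp_map_apply (MonoidHom.id G) f ⟨cycFun A σ a, hA⟩
  refine h.trans ?_
  congr 1
  apply cocycles₂_ext
  intro g₁ g₂
  exact cycFun_comp f σ a (g₁, g₂)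

end Naturality

section Layer

variable {k G : Type} [CommRing k] [Group G] [Fintype G]

/-- **(A)**  `H¹(G, C) = 0` for a cyclic group from `H¹(G, J) = 0` and the norm principle. -/
theorem isZero_H1_of_normPrinciple {X : ShortComplex (Rep.{0, 0, 0} k G)} (hX : X.ShortExact)
    (σ : G) (hσ : ∀ g : G, g ∈ Subgroup.zpowers σ)
    (h1 : Limits.IsZero (groupCohomology X.X₂ 1))
    (hNP : ∀ u : X.X₁, (∀ g : G, X.X₁.ρ g u = u) →
      (∃ y : X.X₂, ∑ g : G, X.X₂.ρ g y = X.f.hom u) → ∃ u' : X.X₁, ∑ g : G, X.X₁.ρ g u' = u) :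
    Limits.IsZero (groupCohomology X.X₃ 1) := by
  have hn : 0 < orderOf σ := orderOf_pos σ
  -- injectivity of `H²(G, X₁) → H²(G, X₂)`
  have key : ∀ d : groupCohomology X.X₁ 2, ((functor k G 2).map X.f).hom d = 0 → d = 0 := by
    intro d hzero
    induction d using H2_induction_on with
    | h c =>
      obtain ⟨hinv, hc⟩ := cycClass_sum X.X₁ σ hn hσ c
      have hc' : (H2π X.X₁) c = cycClass X.X₁ σ (cycSum X.X₁ σ c (orderOf σ)) := hc
      rw [hc'] at hzero ⊢
      have hmap := map_cycClass X.f σ hn hσ _ hinv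
      have h0 : cycClass X.X₂ σ (X.f.hom (cycSum X.X₁ σ c (orderOf σ))) = 0 := by
        rw [← hmap]
        exact hzero
      obtain ⟨y, hy⟩ := exists_cycNorm_of_cycClass_eq_zero X.X₂ σ hn hσ _
        (rho_map_of_invariant X.f _ hinv) h0
      obtain ⟨u', hu'⟩ := hNP _ hinv ⟨y, by rw [sum_univ_eq_sum_range σ hσ]; exact hy⟩
      rw [sum_univ_eq_sum_range σ hσ] at hu'
      rw [← hu']
      exact cycClass_norm X.X₁ σ hn hσ u'
  rw [ModuleCat.isZero_iff_subsingleton]
  refine ⟨fun x x' => ?_⟩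
  suffices h : ∀ x : groupCohomology X.X₃ 1, x = 0 by rw [h x, h x']
  intro x
  -- the connecting homomorphism kills `x`
  have hzero := ShortComplex.moduleCat_zero_apply (mapShortComplex₁ hX (i := 1) (j := 2) rfl) x
  have hd0 : (mapShortComplex₃ hX (i := 1) (j := 2) rfl).g x = 0 := key _ hzero
  -- exactness at `H¹(G, X₃)`
  obtain ⟨z, hz⟩ := (ShortComplex.moduleCat_exact_iff _).1
    (mapShortComplex₃_exact hX (i := 1) (j := 2) rfl) x hd0
  have hs : Subsingleton (groupCohomology X.X₂ 1) := ModuleCat.subsingleton_of_isZero h1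
  have hz0 : z = 0 := @Subsingleton.elim _ hs z 0
  rw [← hz, hz0]
  exact map_zero _

end Layer

section LayerB

variable {k G : Type} [CommRing k] [Group G]

/-- Invariants of `X₂` surject onto invariants of `X₃` when `H¹(G, X₁) = 0` (any group). -/
theorem exists_invariant_lift {X : ShortComplex (Rep.{0, 0, 0} k G)} (hX : X.ShortExact)
    (h1 : Limits.IsZero (groupCohomology X.X₁ 1)) (c : X.X₃) (hc : ∀ g : G, X.X₃.ρ g c = c) :
    ∃ y : X.X₂, (∀ g : G, X.X₂.ρ g y = y) ∧ X.g.hom y = c := by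
  have hinj : Function.Injective X.f.hom := (Rep.mono_iff_injective X.f).1 hX.mono_f
  have hsurj : Function.Surjective X.g.hom := (Rep.epi_iff_surjective X.g).1 hX.epi_g
  have hrk : LinearMap.range X.f.hom.toLinearMap = LinearMap.ker X.g.hom.toLinearMap :=
    (hX.exact.map (forget₂ (Rep.{0} k G) (ModuleCat.{0} k))).moduleCat_range_eq_ker
  have hex : ∀ b : X.X₂, X.g.hom b = 0 → ∃ a : X.X₁, X.f.hom a = b := by
    intro b hb
    have : b ∈ LinearMap.ker X.g.hom.toLinearMap := hb
    rw [← hrk] at this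
    exact this
  have hgf : ∀ a : X.X₁, X.g.hom (X.f.hom a) = 0 := by
    intro a
    have : X.f.hom a ∈ LinearMap.ker X.g.hom.toLinearMap := by
      rw [← hrk]
      exact ⟨a, rfl⟩
    exact this
  obtain ⟨y₀, hy₀⟩ := hsurj c
  have hw : ∀ γ : G, ∃ a : X.X₁, X.f.hom a = X.X₂.ρ γ y₀ - y₀ := fun γ => hex _ (by
    rw [map_sub, hom_comm_apply, hy₀, hc, sub_self])
  choose w hw using hw
  have hcoc : w ∈ cocycles₁ X.X₁ := by
    rw [mem_cocycles₁_iff]
    intro g h
    apply hinj
    rw [map_add, hom_comm_apply, hw, hw, hw, map_mul, Module.End.mul_apply, map_sub]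
    abel
  have hs : Subsingleton (groupCohomology X.X₁ 1) := ModuleCat.subsingleton_of_isZero h1
  have h0 : H1π X.X₁ ⟨w, hcoc⟩ = 0 := @Subsingleton.elim _ hs _ _
  obtain ⟨u₀, hu₀⟩ := (H1π_eq_zero_iff _).1 h0
  refine ⟨y₀ - X.f.hom u₀, fun γ => ?_, ?_⟩
  · have h2 : X.X₁.ρ γ u₀ - u₀ = w γ := congrFun hu₀ γ
    have h3 : X.X₁.ρ γ u₀ = u₀ + w γ := by
      rw [← h2]
      abel
    rw [map_sub, ← hom_comm_apply, h3, map_add, hw]
    abel
  · rw [map_sub, hy₀, hgf, sub_zero]

/-- **(B)**  `#H²(G, C) ∣ n` for a cyclic group from `H¹(G, U) = 0` and the index of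
`f(U) + N_G(J)` (or any smaller subgroup `D`) in the invariants `I = J^G`. -/
theorem natCard_H2_dvd_of_relIndex [Fintype G] {X : ShortComplex (Rep.{0, 0, 0} k G)}
    (hX : X.ShortExact) (σ : G) (hσ : ∀ g : G, g ∈ Subgroup.zpowers σ)
    (h1 : Limits.IsZero (groupCohomology X.X₁ 1))
    (I D : AddSubgroup X.X₂) (hI : ∀ y : X.X₂, y ∈ I ↔ ∀ g : G, X.X₂.ρ g y = y)
    (hD : ∀ y ∈ D, ∃ (u : X.X₁) (z : X.X₂), y = X.f.hom u + ∑ g : G, X.X₂.ρ g z)
    (n : ℕ) (hn : D.relIndex I ∣ n) : Nat.card (groupCohomology X.X₃ 2) ∣ n := by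
  have hord : 0 < orderOf σ := orderOf_pos σ
  have hrk : LinearMap.range X.f.hom.toLinearMap = LinearMap.ker X.g.hom.toLinearMap :=
    (hX.exact.map (forget₂ (Rep.{0} k G) (ModuleCat.{0} k))).moduleCat_range_eq_ker
  have hgf : ∀ a : X.X₁, X.g.hom (X.f.hom a) = 0 := by
    intro a
    have : X.f.hom a ∈ LinearMap.ker X.g.hom.toLinearMap := by
      rw [← hrk]
      exact ⟨a, rfl⟩
    exact this
  have hginv : ∀ y : I, ∀ g : G, X.X₃.ρ g (X.g.hom (y : X.X₂)) = X.g.hom (y : X.X₂) :=
    fun y => rho_map_of_invariant X.g _ ((hI _).1 y.2)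
  let Φ : ↥I →+ groupCohomology X.X₃ 2 := AddMonoidHom.mk'
    (fun y => cycClass X.X₃ σ (X.g.hom (y : X.X₂))) (fun y y' => by
      show cycClass X.X₃ σ (X.g.hom ((y : X.X₂) + (y' : X.X₂))) = _
      rw [map_add]
      exact cycClass_add X.X₃ σ hord hσ _ _ (hginv y) (hginv y'))
  have hΦ : ∀ y : I, Φ y = cycClass X.X₃ σ (X.g.hom (y : X.X₂)) := fun _ => rfl
  have hsurj : Function.Surjective Φ := by
    intro x
    induction x using H2_induction_on with
    | h c =>
      obtain ⟨hinv, hc⟩ := cycClass_sum X.X₃ σ hord hσ c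
      obtain ⟨y, hy, hyc⟩ := exists_invariant_lift hX h1 _ hinv
      refine ⟨⟨y, (hI y).2 hy⟩, ?_⟩
      rw [hΦ]
      show cycClass X.X₃ σ (X.g.hom y) = _
      rw [hyc]
      exact hc.symm
  have hker : D.addSubgroupOf I ≤ Φ.ker := by
    intro y hy
    obtain ⟨u, z, hyz⟩ := hD _ (AddSubgroup.mem_addSubgroupOf.mp hy)
    rw [AddMonoidHom.mem_ker, hΦ, hyz, map_add, hgf, zero_add, map_sum]
    have : ∑ g : G, X.g.hom (X.X₂.ρ g z) = cycNorm X.X₃ σ (X.g.hom z) (orderOf σ) := by
      rw [sum_univ_eq_sum_range σ hσ]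
      exact Finset.sum_congr rfl fun i _ => hom_comm_apply X.g _ z
    rw [this]
    exact cycClass_norm X.X₃ σ hord hσ _
  have hcard : Nat.card (groupCohomology X.X₃ 2) = Φ.ker.index := by
    rw [AddSubgroup.index_ker, AddMonoidHom.range_eq_top.mpr hsurj]
    exact (Nat.card_congr AddSubgroup.topEquiv.toEquiv).symm
  rw [hcard]
  exact (AddSubgroup.index_dvd_of_le hker).trans hn

end LayerB

section Count

/-- **Finite counting lemma** (norm principle by counting).  If `N ≤ ker φ`, `[E : N] = p^(a-1)`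
(written `N.index * p = p ^ a`), `#Y = p ^ a` and the index of the range of `φ` divides `p`, then
`ker φ = N`. -/
theorem ker_eq_of_count {E Y : Type*} [Group E] [Group Y] (φ : E →* Y) (N : Subgroup E)
    (hN : N ≤ φ.ker) (p a : ℕ) (hp : p.Prime) (hE : N.index * p = p ^ a)
    (hY : Nat.card Y = p ^ a) (hcok : φ.range.index ∣ p) : φ.ker = N := by
  have h1 : Nat.card φ.range * φ.range.index = Nat.card Y := Subgroup.card_mul_index φ.range
  have h2 : φ.ker.index = Nat.card φ.range := Subgroup.index_ker φ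
  have h3 : N.relIndex φ.ker * φ.ker.index = N.index := Subgroup.relIndex_mul_index hN
  have hpa : p ^ a ≠ 0 := pow_ne_zero _ hp.ne_zero
  have hi0 : φ.range.index ≠ 0 := fun h => by
    rw [h, zero_dvd_iff] at hcok
    exact hp.ne_zero hcok
  have hκ0 : φ.ker.index ≠ 0 := fun h => by
    rw [← h2, h, zero_mul, hY] at h1
    exact hpa h1.symm
  -- `r * κ * p = κ * i`
  have h4 : N.relIndex φ.ker * p * φ.ker.index = φ.range.index * φ.ker.index := by
    calc N.relIndex φ.ker * p * φ.ker.index = N.relIndex φ.ker * φ.ker.index * p := by ring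
      _ = p ^ a := by rw [h3, hE]
      _ = φ.range.index * φ.ker.index := by rw [← hY, ← h1, h2]; ring
  have h5 : N.relIndex φ.ker * p = φ.range.index := Nat.eq_of_mul_eq_mul_right (Nat.pos_of_ne_zero hκ0) h4
  have h6 : φ.range.index ≤ p := Nat.le_of_dvd hp.pos hcok
  have h7 : N.relIndex φ.ker = 1 := by
    have hr0 : N.relIndex φ.ker ≠ 0 := fun h => hi0 (by rw [← h5, h, zero_mul])
    have : N.relIndex φ.ker * p ≤ 1 * p := by rw [h5, one_mul]; exact h6
    have := Nat.le_of_mul_le_mul_right this hp.pos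
    omega
  exact le_antisymm (Subgroup.relIndex_eq_one.mp h7) hN

end Count

end Fermat.Agent.S55.H37
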