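/-
S55 (Program C), packages C1/C8 — helper37.  Mathlib + `H37/CycLayer` + `H29/C8Core` only.

For a finite cyclic group `G = ⟨σ⟩` and a short exact sequence `0 → X₁ → X₂ → X₃ → 0` of
`G`-representations with `H¹(G, X₁) = 0`, the map `H²(G, X₂) → H²(G, X₃)` is onto
(every class of `H²(G, X₃)` is the cyclic class of an invariant (CY2), invariants lift when
`H¹(G, X₁) = 0`, and cyclic classes are natural).  This is the hypothesis `hsurj` of
`H29.lift_of_towers` for a cyclic layer `E/k` (with `X = (Eˣ → J_E → C_E)` and Hilbert 90),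
without `H³` / periodicity.

* `map_H2_surjective_of_cyclic` : for `((functor k G 2).map X.g).hom`;
* `mapH2_surjective_of_cyclic` : the same for `H29.mapH2 X.g`;
* `exists_cycClass_lift` : the elementwise form, with the lifted invariant.
-/
import Fermat.Agent.S55.H37.CycLayer
import Fermat.Agent.S55.H29.C8Core

set_option autoImplicit false

open CategoryTheory groupCohomology Rep

noncomputable section

namespace Fermat.Agent.S55.H37

open Fermat.Agent.S55.H66

variable {k G : Type} [CommRing k] [Group G] [Finite G]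

/-- Elementwise form: every class of `H²(G, X₃)` is the image of the cyclic class of an
invariant of `X₂`. -/
theorem exists_cycClass_lift {X : ShortComplex (Rep.{0, 0, 0} k G)} (hX : X.ShortExact)
    (σ : G) (hσ : ∀ g : G, g ∈ Subgroup.zpowers σ)
    (h1 : Limits.IsZero (groupCohomology X.X₁ 1)) (x : groupCohomology X.X₃ 2) :
    ∃ y : X.X₂, (∀ g : G, X.X₂.ρ g y = y) ∧
      ((functor k G 2).map X.g).hom (cycClass X.X₂ σ y) = x := by
  obtain ⟨c, hc, rfl⟩ := leafCycSurj k G X.X₃ σ hσ x
  obtain ⟨y, hy, rfl⟩ := exists_invariant_lift hX h1 c hc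
  exact ⟨y, hy, map_cycClass X.g σ (orderOf_pos σ) hσ y hy⟩

/-- `H²(G, X₂) → H²(G, X₃)` is onto for a finite cyclic group when `H¹(G, X₁) = 0`. -/
theorem map_H2_surjective_of_cyclic {X : ShortComplex (Rep.{0, 0, 0} k G)} (hX : X.ShortExact)
    (σ : G) (hσ : ∀ g : G, g ∈ Subgroup.zpowers σ)
    (h1 : Limits.IsZero (groupCohomology X.X₁ 1)) :
    Function.Surjective ((functor k G 2).map X.g).hom := by
  intro x
  obtain ⟨y, -, hy⟩ := exists_cycClass_lift hX σ hσ h1 x
  exact ⟨_, hy⟩

/-- The same in the `H29.mapH2` form (hypothesis `hsurj` of `H29.lift_of_towers`). -/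
theorem mapH2_surjective_of_cyclic {X : ShortComplex (Rep.{0, 0, 0} k G)} (hX : X.ShortExact)
    (σ : G) (hσ : ∀ g : G, g ∈ Subgroup.zpowers σ)
    (h1 : Limits.IsZero (groupCohomology X.X₁ 1)) :
    Function.Surjective (Fermat.Agent.S55.H29.mapH2 X.g) :=
  map_H2_surjective_of_cyclic hX σ hσ h1

/-- Variant for a morphism `π : J ⟶ C` with a given kernel sequence: if `S` is a short exact
sequence with `S.g = π` (as an equation of morphisms), `H²(G, J) → H²(G, C)` is onto. -/
theorem mapH2_surjective_of_cyclic' {U J C : Rep.{0, 0, 0} k G} (ι : U ⟶ J) (π : J ⟶ C)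
    (w : ι ≫ π = 0) (hS : (ShortComplex.mk ι π w).ShortExact)
    (σ : G) (hσ : ∀ g : G, g ∈ Subgroup.zpowers σ)
    (h1 : Limits.IsZero (groupCohomology U 1)) :
    Function.Surjective (Fermat.Agent.S55.H29.mapH2 π) :=
  mapH2_surjective_of_cyclic (X := ShortComplex.mk ι π w) hS σ hσ h1

end Fermat.Agent.S55.H37
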