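/-
S55 (Program C), package C8 — helper37.

`primeHasse_of_hnt : H29.HasseNormStatement → H29.PrimeHasseStatement p` : the Hasse principle
for Kummer layers of prime degree from the Hasse norm theorem alone ((CYC-LOC) and (CYC-GLOB)
are theorems: `H37.cycLocStatement`, `H37.cycGlobStatement`).
-/
import Fermat.Agent.S55.H37.PrimeHasse
import Fermat.Agent.S55.H37.CycGlob
import Fermat.Agent.S55.H37.CycLoc

set_option autoImplicit false

namespace Fermat.Agent.S55.H37

open Fermat.Agent.S55.H29

/-- **(PRIME)** from (HNT) alone. -/
theorem primeHasse_of_hnt (hHNT : HasseNormStatement) (p : ℕ) : PrimeHasseStatement p :=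
  primeHasse_of hHNT cycLocStatement cycGlobStatement p

end Fermat.Agent.S55.H37
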