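/-
S55 (Program C), package C8 — helper37.

`primeHasseStatement p : H29.PrimeHasseStatement p`, UNCONDITIONAL: the Hasse principle for
Kummer layers of prime degree `p` (`p` odd), from the Hasse norm theorem
`H8.hasseNormStatement` (helper8) and `H37.primeHasse_of_hnt`.
-/
import Fermat.Agent.S55.H37.PrimeHasseFinal
import Fermat.Agent.S55.H8.HNT

set_option autoImplicit false

namespace Fermat.Agent.S55.H37

open Fermat.Agent.S55.H29

/-- **(PRIME)**, verbatim and unconditional. -/
theorem primeHasseStatement (p : ℕ) : PrimeHasseStatement p :=
  primeHasse_of_hnt Fermat.Agent.S55.H8.hasseNormStatement p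

end Fermat.Agent.S55.H37
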